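/-
S59lib / PS3 / Step (helper2): the Hecke side of the `p`-step, packaged in the `eigO` vocabulary.

* `map_jα_le_eigO` : `j_α Λ ≤ eigO (N q) P' a'`, `a' = a` with `a' q = α` (`U_q = α`), for
  `Λ ≤ eigO N P a` on which `T_q = t`, `α² - t α + q = 0`;
* `eigO_first_eq`, **`length_cong_eigO_first`** : identification and growth of the congruence
  module, constant `(α² - 1)(2 α - t)`.
-/
import Mathlib
import Fermat.Agent.S59lib.PS3.First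
import Fermat.Agent.S59lib.N3.Step

set_option autoImplicit false
set_option linter.unusedSectionVars false
set_option linter.unusedVariables false

noncomputable section

namespace Fermat.Agent.S59lib.PS3

open Module IsLocalRing TensorProduct CongruenceSubgroup
open Fermat.Agent.S41lib.BR Fermat.Agent.S16lib.LG Fermat.Agent.S59lib.N3
open scoped MatrixGroups

section Eig

variable {𝒪 : Type*} [CommRing 𝒪]
variable {N q : ℕ} [NeZero N] [Fact q.Prime] (hqN : ¬ q ∣ N)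

/-- `j_α` maps an eigenspace of level `N` on which `T_q = t` into the eigenspace of level `N q` with
`U_q = α` -/
theorem map_jα_le_eigO (P P' : ℕ → Prop) (hPP' : ∀ ℓ, ℓ ≠ q → ¬ P' ℓ → ¬ P ℓ) (a : ℕ → 𝒪)
    (t α : 𝒪) (hα : α ^ 2 - t * α + (q : 𝒪) = 0) {Λ : Submodule 𝒪 (MO 𝒪 N)}
    (hΛ : Λ ≤ eigO 𝒪 N P a) (hTq : ∀ x ∈ Λ, tO 𝒪 (Fact.out : q.Prime) hqN x = t • x) :
    Λ.map (jα N q α) ≤ eigO 𝒪 (N * q) P' (Function.update a q α) := by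
  rintro _ ⟨x, hxΛ, rfl⟩
  obtain ⟨hx1, hx2⟩ := hΛ hxΛ
  refine ⟨fun ℓ hℓ hℓM hP => ?_, fun r hr hrM hP => ?_⟩
  · have hℓN : ¬ ℓ ∣ N := fun h => hℓM (h.mul_right q)
    have hℓq : ℓ ≠ q := by
      rintro rfl
      exact hℓM (dvd_mul_left _ _)
    rw [Function.update_of_ne hℓq, ← jα_tO hℓ hℓN hℓM, hx1 ℓ hℓ hℓN (hPP' ℓ hℓq hP), map_smul]
  · by_cases hrq : r = q
    · subst hrq
      rw [Function.update_self]
      exact uO_jα hqN t α hα x (hTq x hxΛ)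
    · rw [Function.update_of_ne hrq]
      have hrN : r ∣ N := (hr.dvd_mul.mp hrM).resolve_right
        (fun h => hrq ((Nat.prime_dvd_prime_iff_eq hr (Fact.out : q.Prime)).mp h))
      have : Fact r.Prime := ⟨hr⟩
      have := jα_uO (𝒪 := 𝒪) hrN (Ne.symm hrq) α x
      rw [hx2 r hr hrN (hPP' r hrq hP), map_smul] at this
      exact this

end Eig

section StepThm

variable {𝒪 : Type*} [CommRing 𝒪] [IsDomain 𝒪] [IsDiscreteValuationRing 𝒪]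
variable {p : ℕ} [Fact p.Prime]
variable {N q : ℕ} [NeZero N] [Fact q.Prime] (hqN : ¬ q ∣ N)

/-- **Identification of the eigenspace at level `N q`** (`U_q = α`). -/
theorem eigO_first_eq (hp2 : p ≠ 2) (hp : (p : 𝒪) ∈ maximalIdeal 𝒪)
    (P P' : ℕ → Prop) (hPP' : ∀ ℓ, ℓ ≠ q → ¬ P' ℓ → ¬ P ℓ) (a : ℕ → 𝒪)
    (t α : 𝒪) (hα : α ^ 2 - t * α + (q : 𝒪) = 0)
    (hTq : ∀ x ∈ eigO 𝒪 N P a, tO 𝒪 (Fact.out : q.Prime) hqN x = t • x)
    {ℓ : ℕ} (hℓ : ℓ.Prime) (hℓN : ¬ ℓ ∣ N) (hPℓ : ¬ P ℓ)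
    (hu : IsUnit (a ℓ - ((ℓ : 𝒪) + 1)))
    (hrk : Module.finrank 𝒪 (eigO 𝒪 (N * q) P' (Function.update a q α)) ≤
      Module.finrank 𝒪 (eigO 𝒪 N P a)) :
    eigO 𝒪 (N * q) P' (Function.update a q α) = (eigO 𝒪 N P a).map (jα N q α) := by
  obtain ⟨F, G, hFG⟩ := exists_factor_jα (𝒪 := 𝒪) hqN hp2 hℓ hℓN α
  have hE : ∀ x ∈ eigO 𝒪 N P a, (-(eisO 𝒪 hℓ hℓN)) x = (-(a ℓ - ((ℓ : 𝒪) + 1))) • x := by
    intro x hx
    rw [LinearMap.neg_apply, eisO_apply, hx.1 ℓ hℓ hℓN hPℓ, neg_smul, sub_smul]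
  have hsat := isSat_eigO (𝒪 := 𝒪) N P a
  have hinj := inj_of_factor _ _ F G (p : 𝒪) hp hFG hsat _ hu.neg hE
  have hsat' := isSat_map_of_factor _ _ F G (p : 𝒪) hp hFG hsat _ hu.neg hE
  refine (eq_of_isSat_of_finrank_le hsat'
    (map_jα_le_eigO hqN P P' hPP' a t α hα le_rfl hTq) ?_).symm
  rw [finrank_map_of_inj _ _ hinj]
  exact hrk

variable [Fintype (SL(2, ℤ) ⧸ Gamma0 N)] [Fintype (SL(2, ℤ) ⧸ Gamma0 (N * q))]

/-- **The Hecke side of the `p`-step**: growth of the congruence module of the eigenspace under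
`N → N q` with `U_q = α` (twisted form). -/
theorem length_cong_eigO_first (hp2 : p ≠ 2) (hp : (p : 𝒪) ∈ maximalIdeal 𝒪)
    (P P' : ℕ → Prop) (hPP' : ∀ ℓ, ℓ ≠ q → ¬ P' ℓ → ¬ P ℓ) (a : ℕ → 𝒪)
    (t α : 𝒪) (hα : α ^ 2 - t * α + (q : 𝒪) = 0)
    (hTq : ∀ x ∈ eigO 𝒪 N P a, tO 𝒪 (Fact.out : q.Prime) hqN x = t • x)
    {ℓ : ℕ} (hℓ : ℓ.Prime) (hℓN : ¬ ℓ ∣ N) (hPℓ : ¬ P ℓ)
    (hu : IsUnit (a ℓ - ((ℓ : 𝒪) + 1)))
    (hrk : Module.finrank 𝒪 (eigO 𝒪 (N * q) P' (Function.update a q α)) ≤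
      Module.finrank 𝒪 (eigO 𝒪 N P a))
    (hc₀ : (α ^ 2 - 1) * (2 * α - t) ≠ 0) :
    Module.length 𝒪 (MO 𝒪 (N * q) ⧸
        (eigO 𝒪 (N * q) P' (Function.update a q α) ⊔
          rorth (formOw 𝒪 (N * q)) (eigO 𝒪 (N * q) P' (Function.update a q α)))) =
      Module.length 𝒪 (MO 𝒪 N ⧸ (eigO 𝒪 N P a ⊔ rorth (formOw 𝒪 N) (eigO 𝒪 N P a))) +
        Module.finrank 𝒪 (eigO 𝒪 N P a) * Module.length 𝒪
          (𝒪 ⧸ (Ideal.span {(α ^ 2 - 1) * (2 * α - t)} : Ideal 𝒪)) := by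
  rw [eigO_first_eq hqN hp2 hp P P' hPP' a t α hα hTq hℓ hℓN hPℓ hu hrk]
  exact length_cong_jα_twist hqN hp2 hp hℓ hℓN (isSat_eigO N P a) t α hα hTq _ hu
    (fun x hx => by rw [eisO_apply, hx.1 ℓ hℓ hℓN hPℓ, sub_smul]) hc₀

end StepThm

end Fermat.Agent.S59lib.PS3
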