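/-
S59lib / PS3 / CspSelf (helper2): the congruence-subgroup brick `IH.CSPBrick hqN p` for EVERY odd
prime `p`, the case `q = p` included.

`S41lib/TREE` proves it for `q ≠ p`; the only use of `q ≠ p` there is "`𝔽_p` has no `q`-torsion" in
`chi_E12`, `chi_E21` (a homomorphism `χ : Δ → A` killing the parabolic elements of `Γ₀(N)` kills
`E₁₂(m / q^k)`).  Here these are proved by conjugation with `diag(q^k, q^{-k}) ∈ Δ`
(`E₁₂(m / q^k) = d⁻¹ E₁₂(m q^k) d`), so no hypothesis on `A` is needed; the rest of the chain is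
re-issued verbatim.
-/
import Mathlib
import Fermat.Agent.S41lib.TREE.CspBrick

set_option autoImplicit false
set_option linter.unusedSectionVars false
set_option linter.unusedVariables false

noncomputable section

namespace Fermat.Agent.S59lib.PS3

open Matrix CongruenceSubgroup Matrix.SpecialLinearGroup ModularCurve.Period ModularForm
open Fermat.Agent.S41lib.HC Fermat.Agent.S31lib.PET Fermat.Agent.S41lib.TREE
open Fermat.Agent.S41lib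
open scoped MatrixGroups

/-! ### Homomorphisms on `Δ` killing the parabolic elements of `Γ₀(N)`: no torsion hypothesis -/

section chi

variable {N q : ℕ} [Fact q.Prime] (hqN : Nat.Coprime q N)
  {A : Type*} [CommGroup A]
  (χ : ↥(Delta N q) →* A)
  (hpar : ∀ γ : ↥(Gamma0 N),
    (((γ : SL(2, ℤ)) : Matrix (Fin 2) (Fin 2) ℤ)).trace ^ 2 = 4 →
      χ ⟨iotaF N γ, iotaF_mem_Delta γ⟩ = 1)

include hqN hpar in
/-- `χ` kills `E₁₂(x)`, `x ∈ ℤ[1/q]` (by conjugation with `diag(q^k, q^{-k}) ∈ Δ`) -/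
theorem chiE12 (x : ℚ) (hx : E12 x ∈ Delta N q) (k : ℕ) (m : ℤ) (hxm : x * (q : ℚ) ^ k = m) :
    χ ⟨E12 x, hx⟩ = 1 := by
  have hq0 : (q : ℚ) ≠ 0 := cast_q_ne_zero
  have hu0 : (q : ℚ) ^ k ≠ 0 := pow_ne_zero k hq0
  have hd : diagU ((q : ℚ) ^ k) hu0 ∈ Delta N q := diagU_pow_mem hqN k
  have e : (⟨E12 x, hx⟩ : ↥(Delta N q)) =
      (⟨diagU ((q : ℚ) ^ k) hu0, hd⟩ : ↥(Delta N q))⁻¹ *
        ⟨iotaF N (upInt N (m * (q : ℤ) ^ k)), iotaF_mem_Delta _⟩ *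
        ⟨diagU ((q : ℚ) ^ k) hu0, hd⟩ := by
    apply Subtype.ext
    show E12 x = (diagU ((q : ℚ) ^ k) hu0)⁻¹ * iotaF N (upInt N (m * (q : ℤ) ^ k)) *
      diagU ((q : ℚ) ^ k) hu0
    rw [iotaF_upInt, diagU_inv_mul_E12]
    congr 1
    push_cast
    rw [← hxm]
    field_simp
  rw [e, map_mul, map_mul, map_inv, hpar _ (trace_upInt _)]
  simp

include hqN hpar in
/-- `χ` kills `E₂₁(N x)`, `x ∈ ℤ[1/q]` -/
theorem chiE21 (x : ℚ) (hx : E21 x ∈ Delta N q) (k : ℕ) (m : ℤ)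
    (hxm : x * (q : ℚ) ^ k = (N : ℚ) * m) : χ ⟨E21 x, hx⟩ = 1 := by
  have hq0 : (q : ℚ) ≠ 0 := cast_q_ne_zero
  have hu0 : (q : ℚ) ^ k ≠ 0 := pow_ne_zero k hq0
  have hd : diagU ((q : ℚ) ^ k) hu0 ∈ Delta N q := diagU_pow_mem hqN k
  have e : (⟨E21 x, hx⟩ : ↥(Delta N q)) =
      (⟨diagU ((q : ℚ) ^ k) hu0, hd⟩ : ↥(Delta N q)) *
        ⟨iotaF N (loInt N (m * (q : ℤ) ^ k)), iotaF_mem_Delta _⟩ *
        (⟨diagU ((q : ℚ) ^ k) hu0, hd⟩ : ↥(Delta N q))⁻¹ := by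
    apply Subtype.ext
    show E21 x = diagU ((q : ℚ) ^ k) hu0 * iotaF N (loInt N (m * (q : ℤ) ^ k)) *
      (diagU ((q : ℚ) ^ k) hu0)⁻¹
    rw [iotaF_loInt, diagU_mul_E21]
    congr 1
    push_cast
    rw [← mul_assoc, ← hxm]
    field_simp
  rw [e, map_mul, map_mul, map_inv, hpar _ (trace_loInt _)]
  simp

include hqN hpar in
/-- `χ` kills `diag(u, 1/u)` for `u = q^k ≡ 1 mod N` -/
theorem chiDiagU (k : ℕ) (hk : (N : ℤ) ∣ (q : ℤ) ^ k - 1)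
    (hmem : diagU ((q : ℚ) ^ k) (pow_ne_zero k cast_q_ne_zero) ∈ Delta N q) :
    χ ⟨diagU ((q : ℚ) ^ k) (pow_ne_zero k cast_q_ne_zero), hmem⟩ = 1 := by
  obtain ⟨m, hm⟩ := hk
  have hq0 : (q : ℚ) ≠ 0 := cast_q_ne_zero
  have hu0 : (q : ℚ) ^ k ≠ 0 := pow_ne_zero k hq0
  have hm' : (q : ℚ) ^ k - 1 = (N : ℚ) * m := by exact_mod_cast hm
  have e1 : ((q : ℚ) ^ k)⁻¹ - 1 = (N : ℚ) * ((-m : ℤ) : ℚ) / (q : ℚ) ^ k := by
    push_cast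
    field_simp
    linear_combination (-1 : ℚ) * hm'
  have e3 : (q : ℚ) ^ k - 1 = (N : ℚ) * ((m : ℤ) : ℚ) / (q : ℚ) ^ 0 := by
    rw [pow_zero, div_one]; exact hm'
  have e2 : (1 : ℚ) = ((1 : ℤ) : ℚ) / (q : ℚ) ^ 0 := by simp
  have e4 : -((q : ℚ) ^ k)⁻¹ = ((-1 : ℤ) : ℚ) / (q : ℚ) ^ k := by
    push_cast
    field_simp
  have h1 : E21 (((q : ℚ) ^ k)⁻¹ - 1) ∈ Delta N q := by
    rw [e1]; exact E21_div_pow_mem hqN _ _
  have h2 : E12 1 ∈ Delta N q := by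
    rw [e2]; exact E12_div_pow_mem hqN _ _
  have h3 : E21 ((q : ℚ) ^ k - 1) ∈ Delta N q := by
    rw [e3]; exact E21_div_pow_mem hqN _ _
  have h4 : E12 (-((q : ℚ) ^ k)⁻¹) ∈ Delta N q := by
    rw [e4]; exact E12_div_pow_mem hqN _ _
  have e : (⟨diagU ((q : ℚ) ^ k) hu0, hmem⟩ : ↥(Delta N q)) =
      ⟨_, h1⟩ * ⟨_, h2⟩ * ⟨_, h3⟩ * ⟨_, h4⟩ := by
    apply Subtype.ext
    exact diagU_eq_four _ hu0
  rw [e, map_mul, map_mul, map_mul]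
  rw [chiE21 hqN χ hpar _ h1 k (-m) (by rw [e1]; field_simp),
    chiE12 hqN χ hpar _ h2 0 1 (by simp),
    chiE21 hqN χ hpar _ h3 0 m (by rw [pow_zero, mul_one]; exact hm'),
    chiE12 hqN χ hpar _ h4 k (-1) (by rw [e4]; field_simp)]
  simp

include hqN hpar in
/-- **(P3ℤ)**: `χ(γ')= χ(γ)` if `γ, γ' ∈ Γ₀(N)` have bottom rows `(C, D)`, `(C, D q^{2k})`
with `q^k ≡ 1 mod N`. -/
theorem chiF_eq_of_row (γ γ' : ↥(Gamma0 N)) (k : ℕ) (hk : (N : ℤ) ∣ (q : ℤ) ^ k - 1)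
    (h10 : (γ' : SL(2, ℤ)) 1 0 = (γ : SL(2, ℤ)) 1 0)
    (h11 : (γ' : SL(2, ℤ)) 1 1 = (γ : SL(2, ℤ)) 1 1 * (q : ℤ) ^ (2 * k)) :
    χ ⟨iotaF N γ', iotaF_mem_Delta γ'⟩ = χ ⟨iotaF N γ, iotaF_mem_Delta γ⟩ := by
  have hq0 : (q : ℚ) ≠ 0 := cast_q_ne_zero
  have hu0 : (q : ℚ) ^ k ≠ 0 := pow_ne_zero k hq0
  have hTmem : diagU ((q : ℚ) ^ k) hu0 ∈ Delta N q := diagU_pow_mem hqN k
  have hu2 : ((q : ℚ) ^ k) ^ 2 = (q : ℚ) ^ (2 * k) := by rw [← pow_mul, mul_comm]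
  have h10Q : iotaF N γ' 1 0 = iotaF N γ 1 0 := by
    simp only [iotaF_apply, castQ_apply]; rw [h10]
  have h11Q : iotaF N γ' 1 1 = iotaF N γ 1 1 * ((q : ℚ) ^ k) ^ 2 := by
    simp only [iotaF_apply, castQ_apply]; rw [h11, hu2]; push_cast; rfl
  have key := row_key (iotaF N γ) (iotaF N γ') ((q : ℚ) ^ k) hu0 h10Q h11Q
  set m : ℤ := (γ' : SL(2, ℤ)) 0 1 * (γ : SL(2, ℤ)) 0 0 -
    (γ' : SL(2, ℤ)) 0 0 * (γ : SL(2, ℤ)) 0 1 * (q : ℤ) ^ (2 * k) with hm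
  have hx : (iotaF N γ' 0 1 * iotaF N γ 0 0 - iotaF N γ' 0 0 * iotaF N γ 0 1 * ((q : ℚ) ^ k) ^ 2) /
      ((q : ℚ) ^ k) ^ 2 = (m : ℚ) / (q : ℚ) ^ (2 * k) := by
    simp only [iotaF_apply, castQ_apply]
    rw [hu2, hm]
    push_cast
    rfl
  rw [hx] at key
  have hxmem : E12 ((m : ℚ) / q ^ (2 * k)) ∈ Delta N q := E12_div_pow_mem hqN m (2 * k)
  have e : (⟨iotaF N γ', iotaF_mem_Delta γ'⟩ : ↥(Delta N q)) =
      ⟨_, hxmem⟩ * ((⟨diagU ((q : ℚ) ^ k) hu0, hTmem⟩ : ↥(Delta N q))⁻¹ *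
        ⟨iotaF N γ, iotaF_mem_Delta γ⟩ * (⟨diagU ((q : ℚ) ^ k) hu0, hTmem⟩ : ↥(Delta N q))⁻¹) := by
    apply Subtype.ext
    exact key
  rw [e, map_mul, map_mul, map_mul, map_inv, chiDiagU hqN χ hpar k hk hTmem,
    chiE12 hqN χ hpar _ hxmem (2 * k) m (by field_simp)]
  simp

include hpar in
/-- **(H1)**: `χ ∘ ι_F` kills the upper unipotents of `Γ₀(N)` -/
theorem chiF_upper (γ : ↥(Gamma0 N)) (h10 : (γ : SL(2, ℤ)) 1 0 = 0)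
    (h11 : (γ : SL(2, ℤ)) 1 1 = 1) : χ ⟨iotaF N γ, iotaF_mem_Delta γ⟩ = 1 := by
  apply hpar
  have hdet := SLZ_det (γ : SL(2, ℤ))
  rw [h10, h11] at hdet
  have h00 : (γ : SL(2, ℤ)) 0 0 = 1 := by linarith
  rw [Matrix.trace_fin_two, h00, h11]
  norm_num

include hpar in
/-- **(H2)**: `χ ∘ ι_F` kills the lower unipotents of `Γ₀(N)` -/
theorem chiF_lower (γ : ↥(Gamma0 N)) (h01 : (γ : SL(2, ℤ)) 0 1 = 0)
    (h11 : (γ : SL(2, ℤ)) 1 1 = 1) : χ ⟨iotaF N γ, iotaF_mem_Delta γ⟩ = 1 := by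
  apply hpar
  have hdet := SLZ_det (γ : SL(2, ℤ))
  rw [h01, h11] at hdet
  have h00 : (γ : SL(2, ℤ)) 0 0 = 1 := by linarith
  rw [Matrix.trace_fin_two, h00, h11]
  norm_num

end chi

section theta

variable {N q : ℕ} [Fact q.Prime] (hqN : Nat.Coprime q N)
variable {A : Type*} [CommGroup A] (χ : ↥(Delta N q) →* A)
variable
  (hparT : ∀ γ : ↥(Gamma0 N),
    (((γ : SL(2, ℤ)) : Matrix (Fin 2) (Fin 2) ℤ)).trace ^ 2 = 4 →
      χ ⟨iotaT N q γ, iotaT_mem_Delta γ⟩ = 1)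

include hqN hparT in
/-- **(H1)** for `χ ∘ ι_T` -/
theorem chiT_upper (γ : ↥(Gamma0 N)) (h10 : (γ : SL(2, ℤ)) 1 0 = 0)
    (h11 : (γ : SL(2, ℤ)) 1 1 = 1) : χ ⟨iotaT N q γ, iotaT_mem_Delta γ⟩ = 1 := by
  rw [← comp_thetaD_iotaF hqN χ γ]
  exact chiF_upper (χ.comp (thetaD hqN))
    (fun γ hγ => by rw [comp_thetaD_iotaF]; exact hparT γ hγ) γ h10 h11

include hqN hparT in
/-- **(H2)** for `χ ∘ ι_T` -/
theorem chiT_lower (γ : ↥(Gamma0 N)) (h01 : (γ : SL(2, ℤ)) 0 1 = 0)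
    (h11 : (γ : SL(2, ℤ)) 1 1 = 1) : χ ⟨iotaT N q γ, iotaT_mem_Delta γ⟩ = 1 := by
  rw [← comp_thetaD_iotaF hqN χ γ]
  exact chiF_lower (χ.comp (thetaD hqN))
    (fun γ hγ => by rw [comp_thetaD_iotaF]; exact hparT γ hγ) γ h01 h11

include hqN hparT in
/-- **(P3ℤ)** for `χ ∘ ι_T` -/
theorem chiT_eq_of_row (γ γ' : ↥(Gamma0 N)) (k : ℕ) (hk : (N : ℤ) ∣ (q : ℤ) ^ k - 1)
    (h10 : (γ' : SL(2, ℤ)) 1 0 = (γ : SL(2, ℤ)) 1 0)
    (h11 : (γ' : SL(2, ℤ)) 1 1 = (γ : SL(2, ℤ)) 1 1 * (q : ℤ) ^ (2 * k)) :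
    χ ⟨iotaT N q γ', iotaT_mem_Delta γ'⟩ = χ ⟨iotaT N q γ, iotaT_mem_Delta γ⟩ := by
  rw [← comp_thetaD_iotaF hqN χ γ, ← comp_thetaD_iotaF hqN χ γ']
  exact chiF_eq_of_row hqN (χ.comp (thetaD hqN))
    (fun γ hγ => by rw [comp_thetaD_iotaF]; exact hparT γ hγ) γ γ' k hk h10 h11

end theta

/-! ### The brick, without `q ≠ p` -/

section Brick

variable {N q : ℕ} [NeZero N] [Fact q.Prime] (hqN : ¬ q ∣ N)

/-- **The congruence-subgroup brick** from the CSP block output, `q = p` allowed. -/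
theorem cspBrick_of_cspOut_any {p : ℕ} [Fact p.Prime] (hcsp : CSPOut N q p) :
    IH.CSPBrick (N := N) hqN p := by
  intro φ₁ φ₂ hp₁ hp₂ hrel
  have hcop : Nat.Coprime q N := (Nat.Prime.coprime_iff_not_dvd Fact.out).mpr hqN
  -- multiplicative versions
  let ψ₁ : ↥(Gamma0 N) →* Multiplicative (ZMod p) := AddMonoidHom.toMultiplicativeRight φ₁
  let ψ₂ : ↥(Gamma0 N) →* Multiplicative (ZMod p) := AddMonoidHom.toMultiplicativeRight (-φ₂)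
  have hψ₁ : ∀ g, ψ₁ g = Multiplicative.ofAdd (φ₁ (Additive.ofMul g)) := fun g => rfl
  have hψ₂ : ∀ g, ψ₂ g = Multiplicative.ofAdd (-(φ₂ (Additive.ofMul g))) := fun g => rfl
  have hglue : ∀ h : ↥(Gamma0 (N * q)), ψ₁ (inclMul N q h) = ψ₂ (conjDelta hqN h) := by
    intro h
    rw [hψ₁, hψ₂]
    congr 1
    have := congrArg (fun F : H (Gamma0 (N * q)) (ZMod p) => F (Additive.ofMul h)) hrel
    simp only [AddMonoidHom.add_apply, res_apply, deg_apply, AddMonoidHom.zero_apply] at this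
    exact eq_neg_of_add_eq_zero_left this
  obtain ⟨χ, hχ₁, hχ₂⟩ := exists_glue hcop (inclMul N q) (conjDelta hqN) (fun h => rfl)
    (conjQ_conjDelta hqN) ψ₁ ψ₂ hglue
  have hpar : ∀ γ : ↥(Gamma0 N),
      (((γ : SL(2, ℤ)) : Matrix (Fin 2) (Fin 2) ℤ)).trace ^ 2 = 4 →
        χ ⟨iotaF N γ, iotaF_mem_Delta γ⟩ = 1 := by
    intro γ hγ
    rw [hχ₁, hψ₁, hp₁ γ hγ]
    rfl
  have hparT : ∀ γ : ↥(Gamma0 N),
      (((γ : SL(2, ℤ)) : Matrix (Fin 2) (Fin 2) ℤ)).trace ^ 2 = 4 →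
        χ ⟨iotaT N q γ, iotaT_mem_Delta γ⟩ = 1 := by
    intro γ hγ
    rw [hχ₂, hψ₂, hp₂ γ hγ, neg_zero]
    rfl
  have k₁ := hcsp ψ₁
    (fun g h10 h11 => by rw [← hχ₁]; exact chiF_upper χ hpar g h10 h11)
    (fun g h01 h11 => by rw [← hχ₁]; exact chiF_lower χ hpar g h01 h11)
    (fun g g' k _ hk h10 h11 => by
      rw [← hχ₁, ← hχ₁]; exact chiF_eq_of_row hcop χ hpar g g' k hk h10 h11)
  have k₂ := hcsp ψ₂
    (fun g h10 h11 => by rw [← hχ₂]; exact chiT_upper hcop χ hparT g h10 h11)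
    (fun g h01 h11 => by rw [← hχ₂]; exact chiT_lower hcop χ hparT g h01 h11)
    (fun g g' k _ hk h10 h11 => by
      rw [← hχ₂, ← hχ₂]; exact chiT_eq_of_row hcop χ hparT g g' k hk h10 h11)
  refine ⟨fun g hg => ?_, fun g hg => ?_⟩
  · have := k₁ g ((gamma0Map_eq_one_iff g).mp hg)
    rw [hψ₁] at this
    exact Multiplicative.ofAdd.injective this
  · have := k₂ g ((gamma0Map_eq_one_iff g).mp hg)
    rw [hψ₂] at this
    exact neg_eq_zero.mp (Multiplicative.ofAdd.injective this)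

/-- **The congruence-subgroup brick for every odd `p`** (`q = p` allowed). -/
theorem cspBrick_any {p : ℕ} [Fact p.Prime] (hp2 : p ≠ 2) : IH.CSPBrick (N := N) hqN p :=
  cspBrick_of_cspOut_any hqN (cspOut hqN hp2)

end Brick

end Fermat.Agent.S59lib.PS3
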