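/-
S59lib / PS3 / First (helper2): the first level `N → N q` (`q ∤ N`; `q = p` allowed) for the
numerical criterion at `p` (P-Hecke).

* `sat_first`, `exists_factor_first` : Ihara's lemma on the lattices, as operator identities
  `F ∘ res = p G₁`, `F ∘ deg = (T_ℓ - ℓ - 1) + p G₂` (every odd `p`, via `cspBrick_any`);
* over `𝒪` (model of `N3/Main`): `resO`, `degO`, `jα = α res - deg`;
  `uO_jα` (`U_q j_α = α j_α` when `T_q = t`, `α² - t α + q = 0`), `jα_tO`, `jα_uO`, `wO_resO`,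
  `wO_degO`, Gram formulas `formOw_jα`, `formO_jα`;
* **`length_cong_jα_twist`**, **`length_cong_jα`** : growth of the congruence module,
  constants `(α² - 1)(2 α - t)` (twisted) and `(α² - 1)(q - 1)` (plain).
-/
import Mathlib
import Fermat.Agent.S59lib.PS3.CspSelf
import Fermat.Agent.S59lib.N3.MainU

set_option autoImplicit false
set_option linter.unusedSectionVars false
set_option linter.unusedVariables false

noncomputable section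

namespace Fermat.Agent.S59lib.PS3

open Module IsLocalRing TensorProduct
open Matrix.SpecialLinearGroup CongruenceSubgroup ModularCurve.Period
open Fermat.Agent.S41lib.HC Fermat.Agent.S41lib.BR Fermat.Agent.S41lib.PD Fermat.Agent.S41lib.IH
open Fermat.Agent.S16lib.LG Fermat.Agent.S59lib.N3
open scoped MatrixGroups

/-! ### Saturation at the first level over `ℤ` (any odd `p`, `q = p` allowed) -/

section Integral

variable {N q p ℓ : ℕ} [NeZero N] [Fact q.Prime] [Fact p.Prime] (hqN : ¬ q ∣ N)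

include hqN in
/-- **Ihara's lemma on the lattices**: `res x + deg y ∈ p L'` ⇒ `(T_ℓ - ℓ - 1) x, (T_ℓ - ℓ - 1) y ∈ p L`. -/
theorem sat_first (hp2 : p ≠ 2) (hℓ : ℓ.Prime) (hℓN : ¬ ℓ ∣ N) (x y : ↥(VZ (Gamma0 N)))
    (b : ↥(VZ (Gamma0 (N * q)))) (h : resL N q x + deg2L N q y = (p : ℤ) • b) :
    (∃ x' : ↥(VZ (Gamma0 N)), eisL hℓ hℓN x = (p : ℤ) • x') ∧
    (∃ y' : ↥(VZ (Gamma0 N)), eisL hℓ hℓN y = (p : ℤ) • y') := by
  have : Fact ℓ.Prime := ⟨hℓ⟩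
  have hker : ∃ b' : H (Gamma0 (N * q)) ℤ, res N q ℤ x.1 + deg hqN ℤ y.1 = (p : ℤ) • b' := by
    refine ⟨b.1, ?_⟩
    have h1 := congrArg (fun v : ↥(VZ (Gamma0 (N * q))) => v.1) h
    simp only [Submodule.coe_add, resL_coe, deg2L_coe, Submodule.coe_smul] at h1
    rw [← deg2_eq_deg hqN]
    exact h1
  obtain ⟨⟨a₁, ha₁, e₁⟩, ⟨a₂, ha₂, e₂⟩⟩ :=
    ihara hqN hℓN (cspBrick_any hqN hp2) x.1 y.1 x.2 y.2 hker
  refine ⟨⟨⟨a₁, ha₁⟩, ?_⟩, ⟨⟨a₂, ha₂⟩, ?_⟩⟩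
  · apply Subtype.ext
    rw [eisL_apply, Submodule.coe_sub, Submodule.coe_smul, tL_coe, e₁]
    rfl
  · apply Subtype.ext
    rw [eisL_apply, Submodule.coe_sub, Submodule.coe_smul, tL_coe, e₂]
    rfl

include hqN in
/-- **Saturation at the first level as operator identities**:
`F ∘ res = p G₁`, `F ∘ deg = (T_ℓ - ℓ - 1) + p G₂`. -/
theorem exists_factor_first (hp2 : p ≠ 2) (hℓ : ℓ.Prime) (hℓN : ¬ ℓ ∣ N) :
    ∃ (F : ↥(VZ (Gamma0 (N * q))) →ₗ[ℤ] ↥(VZ (Gamma0 N)))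
      (G₁ G₂ : ↥(VZ (Gamma0 N)) →ₗ[ℤ] ↥(VZ (Gamma0 N))),
      F ∘ₗ (resL N q) = (p : ℤ) • G₁ ∧
      F ∘ₗ (deg2L N q) = eisL hℓ hℓN + (p : ℤ) • G₂ := by
  let ι : (↥(VZ (Gamma0 N)) × ↥(VZ (Gamma0 N))) →ₗ[ℤ] ↥(VZ (Gamma0 (N * q))) :=
    (resL N q).coprod (deg2L N q)
  let E' : (↥(VZ (Gamma0 N)) × ↥(VZ (Gamma0 N))) →ₗ[ℤ]
      (↥(VZ (Gamma0 N)) × ↥(VZ (Gamma0 N))) :=
    (LinearMap.inr ℤ _ _) ∘ₗ (eisL hℓ hℓN) ∘ₗ (LinearMap.snd ℤ _ _)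
  have hsat : ∀ v : ↥(VZ (Gamma0 N)) × ↥(VZ (Gamma0 N)),
      (∃ b : ↥(VZ (Gamma0 (N * q))), ι v = (p : ℤ) • b) →
      ∃ v' : ↥(VZ (Gamma0 N)) × ↥(VZ (Gamma0 N)), E' v = (p : ℤ) • v' := by
    rintro ⟨x, y⟩ ⟨b, hb⟩
    have hb' : resL N q x + deg2L N q y = (p : ℤ) • b := hb
    obtain ⟨-, ⟨y', hy'⟩⟩ := sat_first hqN hp2 hℓ hℓN x y b hb'
    refine ⟨(0, y'), ?_⟩
    show ((0 : ↥(VZ (Gamma0 N))), eisL hℓ hℓN y) = (p : ℤ) • ((0 : ↥(VZ (Gamma0 N))), y')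
    rw [Prod.smul_mk, smul_zero, hy']
  obtain ⟨F₀, G₀, hFG⟩ := exists_factor_of_sat (p := p) ι E' hsat
  refine ⟨(LinearMap.snd ℤ _ _) ∘ₗ F₀,
    -((LinearMap.snd ℤ _ _) ∘ₗ G₀ ∘ₗ (LinearMap.inl ℤ _ _)),
    -((LinearMap.snd ℤ _ _) ∘ₗ G₀ ∘ₗ (LinearMap.inr ℤ _ _)), ?_, ?_⟩
  · apply LinearMap.ext
    intro x
    have h1 := congrArg (fun f => (f (x, (0 : ↥(VZ (Gamma0 N))))).2) hFG
    simp only [E', ι, LinearMap.comp_apply, LinearMap.add_apply, LinearMap.smul_apply,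
      LinearMap.coprod_apply, LinearMap.snd_apply, map_zero, add_zero,
      Prod.snd_add, Prod.smul_snd] at h1
    simp only [LinearMap.comp_apply, LinearMap.smul_apply, LinearMap.neg_apply,
      LinearMap.snd_apply, LinearMap.inl_apply, smul_neg]
    rw [eq_neg_iff_add_eq_zero]
    exact h1.symm
  · apply LinearMap.ext
    intro y
    have h1 := congrArg (fun f => (f ((0 : ↥(VZ (Gamma0 N))), y)).2) hFG
    simp only [E', ι, LinearMap.comp_apply, LinearMap.add_apply, LinearMap.smul_apply,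
      LinearMap.coprod_apply, LinearMap.snd_apply, LinearMap.inr_apply, map_zero, zero_add,
      Prod.snd_add, Prod.smul_snd] at h1
    simp only [LinearMap.comp_apply, LinearMap.smul_apply, LinearMap.neg_apply,
      LinearMap.add_apply, LinearMap.snd_apply, LinearMap.inr_apply, smul_neg]
    rw [h1]
    abel

end Integral

/-! ### The first level over `𝒪` -/

section Concrete

variable (𝒪 : Type*) [CommRing 𝒪]

/-- restriction `𝒪 ⊗ L_M → 𝒪 ⊗ L_{M q}` -/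
def resO (M q : ℕ) [NeZero M] [Fact q.Prime] : MO 𝒪 M →ₗ[𝒪] MO 𝒪 (M * q) :=
  (resL M q).baseChange 𝒪

/-- the second degeneracy map `𝒪 ⊗ L_M → 𝒪 ⊗ L_{M q}` -/
def degO (M q : ℕ) [NeZero M] [Fact q.Prime] : MO 𝒪 M →ₗ[𝒪] MO 𝒪 (M * q) :=
  (deg2L M q).baseChange 𝒪

variable {𝒪}

/-- `j_α = α res - deg` -/
def jα (M q : ℕ) [NeZero M] [Fact q.Prime] (α : 𝒪) : MO 𝒪 M →ₗ[𝒪] MO 𝒪 (M * q) :=
  α • resO 𝒪 M q - degO 𝒪 M q

@[simp] theorem resO_tmul {M q : ℕ} [NeZero M] [Fact q.Prime] (a : 𝒪) (x : ↥(VZ (Gamma0 M))) :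
    resO 𝒪 M q (a ⊗ₜ[ℤ] x) = a ⊗ₜ[ℤ] resL M q x := rfl

@[simp] theorem degO_tmul {M q : ℕ} [NeZero M] [Fact q.Prime] (a : 𝒪) (x : ↥(VZ (Gamma0 M))) :
    degO 𝒪 M q (a ⊗ₜ[ℤ] x) = a ⊗ₜ[ℤ] deg2L M q x := rfl

theorem jα_apply {M q : ℕ} [NeZero M] [Fact q.Prime] (α : 𝒪) (x : MO 𝒪 M) :
    jα M q α x = α • resO 𝒪 M q x - degO 𝒪 M q x := rfl

end Concrete

section Relations

variable {𝒪 : Type*} [CommRing 𝒪]
variable {N q : ℕ} [NeZero N] [Fact q.Prime] (hqN : ¬ q ∣ N)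

/-- `U_q (res x) = res (T_q x) - deg x` -/
theorem uO_resO (x : MO 𝒪 N) :
    uO 𝒪 (dvd_mul_left q N) (resO 𝒪 N q x) =
      resO 𝒪 N q (tO 𝒪 (Fact.out : q.Prime) hqN x) - degO 𝒪 N q x := by
  have h : (uO 𝒪 (dvd_mul_left q N)) ∘ₗ (resO 𝒪 N q) =
      (resO 𝒪 N q) ∘ₗ (tO 𝒪 (Fact.out : q.Prime) hqN) - degO 𝒪 N q := by
    apply lin_ext_one_tmul
    intro x
    show (1 : 𝒪) ⊗ₜ[ℤ] uL (dvd_mul_left q N) (resL N q x) =
      (1 : 𝒪) ⊗ₜ[ℤ] resL N q (tL (Fact.out : q.Prime) hqN x) - (1 : 𝒪) ⊗ₜ[ℤ] deg2L N q x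
    rw [uL_resL hqN, TensorProduct.tmul_sub]
  exact LinearMap.congr_fun h x

/-- `U_q (deg x) = q res x` -/
theorem uO_degO (x : MO 𝒪 N) :
    uO 𝒪 (dvd_mul_left q N) (degO 𝒪 N q x) = (q : 𝒪) • resO 𝒪 N q x := by
  have h : (uO 𝒪 (dvd_mul_left q N)) ∘ₗ (degO 𝒪 N q) = (q : 𝒪) • resO 𝒪 N q := by
    apply lin_ext_one_tmul
    intro x
    show (1 : 𝒪) ⊗ₜ[ℤ] uL (dvd_mul_left q N) (deg2L N q x) = (q : 𝒪) • (1 : 𝒪) ⊗ₜ[ℤ] resL N q x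
    rw [uL_deg2L, TensorProduct.tmul_smul, TensorProduct.smul_tmul', TensorProduct.smul_tmul']
    congr 1
    simp
  exact LinearMap.congr_fun h x

/-- **`U_q j_α = α j_α`** on the `T_q = t` eigenspace, `α² - t α + q = 0` -/
theorem uO_jα (t α : 𝒪) (hα : α ^ 2 - t * α + (q : 𝒪) = 0) (x : MO 𝒪 N)
    (hx : tO 𝒪 (Fact.out : q.Prime) hqN x = t • x) :
    uO 𝒪 (dvd_mul_left q N) (jα N q α x) = α • jα N q α x := by
  rw [jα_apply, map_sub, map_smul, uO_resO hqN, uO_degO, hx, map_smul, smul_sub, smul_sub,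
    smul_smul, smul_smul]
  have hq : (q : 𝒪) = t * α - α ^ 2 := by linear_combination hα
  rw [hq, sub_smul]
  have : α * t = t * α := mul_comm _ _
  rw [this, pow_two]
  abel

/-- `w' res = deg w` -/
theorem wO_resO {M : ℕ} [NeZero M] (x : MO 𝒪 M) :
    wO 𝒪 (M * q) (resO 𝒪 M q x) = degO 𝒪 M q (wO 𝒪 M x) := by
  have h : (wO 𝒪 (M * q)) ∘ₗ (resO 𝒪 M q) = (degO 𝒪 M q) ∘ₗ (wO 𝒪 M) := by
    apply lin_ext_one_tmul
    intro x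
    show (1 : 𝒪) ⊗ₜ[ℤ] frickeL (M * q) (resL M q x) = (1 : 𝒪) ⊗ₜ[ℤ] deg2L M q (frickeL M x)
    rw [frickeL_resL]
  exact LinearMap.congr_fun h x

/-- `w' deg = res w` -/
theorem wO_degO {M : ℕ} [NeZero M] (x : MO 𝒪 M) :
    wO 𝒪 (M * q) (degO 𝒪 M q x) = resO 𝒪 M q (wO 𝒪 M x) := by
  have h : (wO 𝒪 (M * q)) ∘ₗ (degO 𝒪 M q) = (resO 𝒪 M q) ∘ₗ (wO 𝒪 M) := by
    apply lin_ext_one_tmul
    intro x
    show (1 : 𝒪) ⊗ₜ[ℤ] frickeL (M * q) (deg2L M q x) = (1 : 𝒪) ⊗ₜ[ℤ] resL M q (frickeL M x)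
    rw [frickeL_deg2L]
  exact LinearMap.congr_fun h x

/-- `T_ℓ res = res T_ℓ`, `T_ℓ deg = deg T_ℓ`, hence `T_ℓ j_α = j_α T_ℓ` (`ℓ ∤ N q`) -/
theorem jα_tO {M ℓ : ℕ} [NeZero M] (hℓ : ℓ.Prime) (hℓM : ¬ ℓ ∣ M) (hℓMq : ¬ ℓ ∣ M * q)
    (α : 𝒪) (x : MO 𝒪 M) :
    jα M q α (tO 𝒪 hℓ hℓM x) = tO 𝒪 hℓ hℓMq (jα M q α x) := by
  have h1 : (resO 𝒪 M q) ∘ₗ (tO 𝒪 hℓ hℓM) = (tO 𝒪 hℓ hℓMq) ∘ₗ (resO 𝒪 M q) := by
    apply lin_ext_one_tmul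
    intro x
    show (1 : 𝒪) ⊗ₜ[ℤ] resL M q (tL hℓ hℓM x) = (1 : 𝒪) ⊗ₜ[ℤ] tL hℓ hℓMq (resL M q x)
    rw [resL_tL hℓ hℓM hℓMq]
  have h2 : (degO 𝒪 M q) ∘ₗ (tO 𝒪 hℓ hℓM) = (tO 𝒪 hℓ hℓMq) ∘ₗ (degO 𝒪 M q) := by
    apply lin_ext_one_tmul
    intro x
    show (1 : 𝒪) ⊗ₜ[ℤ] deg2L M q (tL hℓ hℓM x) = (1 : 𝒪) ⊗ₜ[ℤ] tL hℓ hℓMq (deg2L M q x)
    rw [deg2L_tL hℓ hℓM hℓMq]
  rw [jα_apply, jα_apply, map_sub, map_smul]
  have e1 := LinearMap.congr_fun h1 x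
  have e2 := LinearMap.congr_fun h2 x
  simp only [LinearMap.comp_apply] at e1 e2
  rw [e1, e2]

/-- `U_r j_α = j_α U_r` for a prime `r ∣ M`, `r ≠ q` -/
theorem jα_uO {M r : ℕ} [NeZero M] [Fact r.Prime] (hrM : r ∣ M) (hqr : q ≠ r) (α : 𝒪)
    (x : MO 𝒪 M) :
    uO 𝒪 (hrM.mul_right q) (jα M q α x) = jα M q α (uO 𝒪 hrM x) := by
  have h1 : (uO 𝒪 (hrM.mul_right q)) ∘ₗ (resO 𝒪 M q) = (resO 𝒪 M q) ∘ₗ (uO 𝒪 hrM) := by
    apply lin_ext_one_tmul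
    intro x
    show (1 : 𝒪) ⊗ₜ[ℤ] uL (hrM.mul_right q) (resL M q x) = (1 : 𝒪) ⊗ₜ[ℤ] resL M q (uL hrM x)
    rw [uL_resL_ne hrM]
  have h2 : (uO 𝒪 (hrM.mul_right q)) ∘ₗ (degO 𝒪 M q) = (degO 𝒪 M q) ∘ₗ (uO 𝒪 hrM) := by
    apply lin_ext_one_tmul
    intro x
    show (1 : 𝒪) ⊗ₜ[ℤ] uL (hrM.mul_right q) (deg2L M q x) = (1 : 𝒪) ⊗ₜ[ℤ] deg2L M q (uL hrM x)
    rw [uL_deg2L_ne hrM hqr]
  rw [jα_apply, jα_apply, map_sub, map_smul]
  have e1 := LinearMap.congr_fun h1 x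
  have e2 := LinearMap.congr_fun h2 x
  simp only [LinearMap.comp_apply] at e1 e2
  rw [e1, e2]

variable [Fintype (SL(2, ℤ) ⧸ Gamma0 N)] [Fintype (SL(2, ℤ) ⧸ Gamma0 (N * q))]

include hqN in
/-- the four Gram identities over `𝒪` -/
theorem formO_resO_resO (x y : MO 𝒪 N) :
    formO 𝒪 (N * q) (resO 𝒪 N q x) (resO 𝒪 N q y) = ((q : 𝒪) + 1) * formO 𝒪 N x y := by
  have key : (formO 𝒪 (N * q)).compl₁₂ (resO 𝒪 N q) (resO 𝒪 N q) =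
      ((q : 𝒪) + 1) • formO 𝒪 N := by
    apply bilin_ext_one_tmul
    intro x y
    simp only [LinearMap.compl₁₂_apply, resO_tmul, formO_tmul, LinearMap.smul_apply,
      form_resL_resL hqN, mul_one, smul_eq_mul, zsmul_eq_mul]
    push_cast
    ring
  have := LinearMap.congr_fun₂ key x y
  simpa only [LinearMap.compl₁₂_apply, LinearMap.smul_apply, smul_eq_mul] using this

include hqN in
theorem formO_degO_degO (x y : MO 𝒪 N) :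
    formO 𝒪 (N * q) (degO 𝒪 N q x) (degO 𝒪 N q y) = ((q : 𝒪) + 1) * formO 𝒪 N x y := by
  have key : (formO 𝒪 (N * q)).compl₁₂ (degO 𝒪 N q) (degO 𝒪 N q) =
      ((q : 𝒪) + 1) • formO 𝒪 N := by
    apply bilin_ext_one_tmul
    intro x y
    simp only [LinearMap.compl₁₂_apply, degO_tmul, formO_tmul, LinearMap.smul_apply,
      form_deg2L_deg2L hqN, mul_one, smul_eq_mul, zsmul_eq_mul]
    push_cast
    ring
  have := LinearMap.congr_fun₂ key x y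
  simpa only [LinearMap.compl₁₂_apply, LinearMap.smul_apply, smul_eq_mul] using this

theorem formO_resO_degO (x y : MO 𝒪 N) :
    formO 𝒪 (N * q) (resO 𝒪 N q x) (degO 𝒪 N q y) =
      formO 𝒪 N x (tO 𝒪 (Fact.out : q.Prime) hqN y) := by
  have key : (formO 𝒪 (N * q)).compl₁₂ (resO 𝒪 N q) (degO 𝒪 N q) =
      (formO 𝒪 N).compl₂ (tO 𝒪 (Fact.out : q.Prime) hqN) := by
    apply bilin_ext_one_tmul
    intro x y
    simp only [LinearMap.compl₁₂_apply, LinearMap.compl₂_apply, resO_tmul, degO_tmul, tO_tmul,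
      formO_tmul, form_resL_deg2L hqN]
  have := LinearMap.congr_fun₂ key x y
  simpa only [LinearMap.compl₁₂_apply, LinearMap.compl₂_apply] using this

theorem formO_degO_resO (x y : MO 𝒪 N) :
    formO 𝒪 (N * q) (degO 𝒪 N q x) (resO 𝒪 N q y) =
      formO 𝒪 N x (tO 𝒪 (Fact.out : q.Prime) hqN y) := by
  have key : (formO 𝒪 (N * q)).compl₁₂ (degO 𝒪 N q) (resO 𝒪 N q) =
      (formO 𝒪 N).compl₂ (tO 𝒪 (Fact.out : q.Prime) hqN) := by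
    apply bilin_ext_one_tmul
    intro x y
    simp only [LinearMap.compl₁₂_apply, LinearMap.compl₂_apply, resO_tmul, degO_tmul, tO_tmul,
      formO_tmul, form_deg2L_resL hqN]
  have := LinearMap.congr_fun₂ key x y
  simpa only [LinearMap.compl₁₂_apply, LinearMap.compl₂_apply] using this

/-- **the twisted Gram formula at the first level**:
`⟨j_α x, w' j_α y⟩ = (α² + 1) ⟨x, w T_q y⟩ - 2 α (q + 1) ⟨x, w y⟩` -/
theorem formOw_jα (α : 𝒪) (x y : MO 𝒪 N) :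
    formOw 𝒪 (N * q) (jα N q α x) (jα N q α y) =
      (α ^ 2 + 1) * formOw 𝒪 N x (tO 𝒪 (Fact.out : q.Prime) hqN y) -
        2 * α * ((q : 𝒪) + 1) * formOw 𝒪 N x y := by
  have hw : wO 𝒪 (N * q) (jα N q α y) = α • degO 𝒪 N q (wO 𝒪 N y) - resO 𝒪 N q (wO 𝒪 N y) := by
    rw [jα_apply, map_sub, map_smul, wO_resO, wO_degO]
  rw [formOw_apply, formOw_apply, formOw_apply, hw, wO_tO, jα_apply]
  simp only [map_sub, map_smul, LinearMap.sub_apply, LinearMap.smul_apply, smul_eq_mul]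
  rw [formO_resO_degO hqN, formO_resO_resO hqN, formO_degO_degO hqN, formO_degO_resO hqN]
  ring

/-- **the plain Gram formula at the first level**:
`⟨j_α x, j_α y⟩ = (q + 1)(α² + 1) ⟨x, y⟩ - 2 α ⟨x, T_q y⟩` -/
theorem formO_jα (α : 𝒪) (x y : MO 𝒪 N) :
    formO 𝒪 (N * q) (jα N q α x) (jα N q α y) =
      ((q : 𝒪) + 1) * (α ^ 2 + 1) * formO 𝒪 N x y -
        2 * α * formO 𝒪 N x (tO 𝒪 (Fact.out : q.Prime) hqN y) := by
  rw [jα_apply, jα_apply]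
  simp only [map_sub, map_smul, LinearMap.sub_apply, LinearMap.smul_apply, smul_eq_mul]
  rw [formO_resO_degO hqN, formO_resO_resO hqN, formO_degO_degO hqN, formO_degO_resO hqN]
  ring

end Relations

section MainThm

variable {𝒪 : Type*} [CommRing 𝒪] [IsDomain 𝒪] [IsDiscreteValuationRing 𝒪]
variable {p : ℕ} [Fact p.Prime]
variable {N q : ℕ} [NeZero N] [Fact q.Prime] (hqN : ¬ q ∣ N)

include hqN in
/-- saturation of `j_α` over `𝒪`: `-(T_ℓ - ℓ - 1) = F ∘ j_α + p G` -/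
theorem exists_factor_jα (hp2 : p ≠ 2) {ℓ : ℕ} (hℓ : ℓ.Prime) (hℓN : ¬ ℓ ∣ N) (α : 𝒪) :
    ∃ (F : MO 𝒪 (N * q) →ₗ[𝒪] MO 𝒪 N) (G : MO 𝒪 N →ₗ[𝒪] MO 𝒪 N),
      -(eisO 𝒪 hℓ hℓN) = F ∘ₗ (jα N q α) + (p : 𝒪) • G := by
  obtain ⟨F, G₁, G₂, h1, h2⟩ := exists_factor_first (p := p) hqN hp2 hℓ hℓN
  refine ⟨F.baseChange 𝒪, G₂.baseChange 𝒪 - α • G₁.baseChange 𝒪, ?_⟩
  have e1 : (F.baseChange 𝒪) ∘ₗ (resO 𝒪 N q) = (p : 𝒪) • G₁.baseChange 𝒪 := by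
    apply lin_ext_one_tmul
    intro x
    have h := congrArg (fun f => (1 : 𝒪) ⊗ₜ[ℤ] f x) h1
    simp only [LinearMap.comp_apply, LinearMap.smul_apply] at h
    simp only [LinearMap.comp_apply, LinearMap.smul_apply, resO, LinearMap.baseChange_tmul]
    rw [h, TensorProduct.tmul_smul, TensorProduct.smul_tmul', TensorProduct.smul_tmul']
    congr 1
    simp
  have e2 : (F.baseChange 𝒪) ∘ₗ (degO 𝒪 N q) = eisO 𝒪 hℓ hℓN + (p : 𝒪) • G₂.baseChange 𝒪 := by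
    apply lin_ext_one_tmul
    intro x
    have h := congrArg (fun f => (1 : 𝒪) ⊗ₜ[ℤ] f x) h2
    simp only [LinearMap.comp_apply, LinearMap.add_apply, LinearMap.smul_apply,
      TensorProduct.tmul_add] at h
    simp only [LinearMap.comp_apply, LinearMap.add_apply, LinearMap.smul_apply, degO, eisO,
      LinearMap.baseChange_tmul]
    rw [h, TensorProduct.tmul_smul, TensorProduct.smul_tmul', TensorProduct.smul_tmul']
    congr 2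
    simp
  apply LinearMap.ext
  intro x
  have a1 := LinearMap.congr_fun e1 x
  have a2 := LinearMap.congr_fun e2 x
  simp only [LinearMap.comp_apply, LinearMap.add_apply, LinearMap.smul_apply] at a1 a2
  simp only [LinearMap.neg_apply, LinearMap.add_apply, LinearMap.comp_apply, LinearMap.smul_apply,
    LinearMap.sub_apply, jα_apply, map_sub, map_smul, a1, a2, smul_sub]
  rw [smul_comm α (p : 𝒪)]
  abel

variable [Fintype (SL(2, ℤ) ⧸ Gamma0 N)] [Fintype (SL(2, ℤ) ⧸ Gamma0 (N * q))]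

/-- **PS3, twisted form**: growth of the congruence module under `N → N q` along
`j_α = α res - deg`, `α² - t α + q = 0` (`q = p` allowed):
`length Ω' = length Ω + rank Λ · length 𝒪/((α² - 1)(2 α - t))`. -/
theorem length_cong_jα_twist (hp2 : p ≠ 2) (hp : (p : 𝒪) ∈ maximalIdeal 𝒪)
    {ℓ : ℕ} (hℓ : ℓ.Prime) (hℓN : ¬ ℓ ∣ N)
    {Λ : Submodule 𝒪 (MO 𝒪 N)} (hsat : IsSat Λ)
    (t α : 𝒪) (hα : α ^ 2 - t * α + (q : 𝒪) = 0)
    (hTq : ∀ x ∈ Λ, tO 𝒪 (Fact.out : q.Prime) hqN x = t • x)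
    (u : 𝒪) (hu : IsUnit u) (hE : ∀ x ∈ Λ, eisO 𝒪 hℓ hℓN x = u • x)
    (hc₀ : (α ^ 2 - 1) * (2 * α - t) ≠ 0) :
    Module.length 𝒪 (MO 𝒪 (N * q) ⧸
        ((Λ.map (jα N q α)) ⊔ rorth (formOw 𝒪 (N * q)) (Λ.map (jα N q α)))) =
      Module.length 𝒪 (MO 𝒪 N ⧸ (Λ ⊔ rorth (formOw 𝒪 N) Λ)) +
        Module.finrank 𝒪 Λ * Module.length 𝒪
          (𝒪 ⧸ (Ideal.span {(α ^ 2 - 1) * (2 * α - t)} : Ideal 𝒪)) := by
  obtain ⟨F, G, hFG⟩ := exists_factor_jα (𝒪 := 𝒪) hqN hp2 hℓ hℓN α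
  have hE' : ∀ x ∈ Λ, (-(eisO 𝒪 hℓ hℓN)) x = (-u) • x := by
    intro x hx
    rw [LinearMap.neg_apply, hE x hx, neg_smul]
  refine length_cong_growth (rightPerfect_formOw hp2 hp N) (rightPerfect_formOw hp2 hp (N * q))
    hsat (jα N q α)
    (inj_of_factor _ _ F G (p : 𝒪) hp hFG hsat (-u) hu.neg hE')
    (isSat_map_of_factor _ _ F G (p : 𝒪) hp hFG hsat (-u) hu.neg hE') _ hc₀ ?_
  intro x hx y hy
  rw [formOw_jα hqN, hTq y hy, map_smul, smul_eq_mul]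
  have hq : (q : 𝒪) = t * α - α ^ 2 := by linear_combination hα
  rw [hq]
  ring

/-- **PS3, plain form**: the same with the cup-product form and the constant
`(α² - 1)(q - 1)`. -/
theorem length_cong_jα (hp2 : p ≠ 2) (hp : (p : 𝒪) ∈ maximalIdeal 𝒪)
    {ℓ : ℕ} (hℓ : ℓ.Prime) (hℓN : ¬ ℓ ∣ N)
    {Λ : Submodule 𝒪 (MO 𝒪 N)} (hsat : IsSat Λ)
    (t α : 𝒪) (hα : α ^ 2 - t * α + (q : 𝒪) = 0)
    (hTq : ∀ x ∈ Λ, tO 𝒪 (Fact.out : q.Prime) hqN x = t • x)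
    (u : 𝒪) (hu : IsUnit u) (hE : ∀ x ∈ Λ, eisO 𝒪 hℓ hℓN x = u • x)
    (hc₀ : (α ^ 2 - 1) * ((q : 𝒪) - 1) ≠ 0) :
    Module.length 𝒪 (MO 𝒪 (N * q) ⧸
        ((Λ.map (jα N q α)) ⊔ rorth (formO 𝒪 (N * q)) (Λ.map (jα N q α)))) =
      Module.length 𝒪 (MO 𝒪 N ⧸ (Λ ⊔ rorth (formO 𝒪 N) Λ)) +
        Module.finrank 𝒪 Λ * Module.length 𝒪
          (𝒪 ⧸ (Ideal.span {(α ^ 2 - 1) * ((q : 𝒪) - 1)} : Ideal 𝒪)) := by
  obtain ⟨F, G, hFG⟩ := exists_factor_jα (𝒪 := 𝒪) hqN hp2 hℓ hℓN α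
  have hE' : ∀ x ∈ Λ, (-(eisO 𝒪 hℓ hℓN)) x = (-u) • x := by
    intro x hx
    rw [LinearMap.neg_apply, hE x hx, neg_smul]
  refine length_cong_growth (rightPerfect_formO hp2 hp N) (rightPerfect_formO hp2 hp (N * q))
    hsat (jα N q α)
    (inj_of_factor _ _ F G (p : 𝒪) hp hFG hsat (-u) hu.neg hE')
    (isSat_map_of_factor _ _ F G (p : 𝒪) hp hFG hsat (-u) hu.neg hE') _ hc₀ ?_
  intro x hx y hy
  rw [formO_jα hqN, hTq y hy, map_smul, smul_eq_mul]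
  have hq : (q : 𝒪) = t * α - α ^ 2 := by linear_combination hα
  rw [hq]
  ring

/-- when `2 α - t` is a unit (e.g. `α` the unit root and `q = p`), the constant is `α² - 1` -/
theorem span_cα_eq (t α : 𝒪) (h : IsUnit (2 * α - t)) :
    (Ideal.span {(α ^ 2 - 1) * (2 * α - t)} : Ideal 𝒪) = Ideal.span {α ^ 2 - 1} :=
  Ideal.span_singleton_mul_right_unit h _

end MainThm

end Fermat.Agent.S59lib.PS3
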